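/-
Programme FF (S19), chapter GLUE (helper7): **a power series is determined by its approximate values**
and **rationality by uniqueness**.  Pure algebra (Mathlib only).

`A` an infinite domain, `m` an ideal such that no nonzero element of `A` is divisible by all nonzero
elements of `m` (`Small m`; e.g. the maximal ideal of a rank-one valuation ring).  For a "value function"
`V : (σ → A) → A` and `F : MvPowerSeries σ A`,

`Approx m V F : ∀ x ∈ m^σ, ∀ N, V x − eval x (truncTotal N F) ∈ (x_s : s ∈ σ)^N`.

* `eq_zero_of_approx_zero` : `Approx m 0 F → F = 0`;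
* `approx_unique`          : `Approx m V F → Approx m V G → F = G`;
* `map_eq_of_equivariant`  : if `γ : A ≃+* A` preserves `m` and `V (γ ∘ x) = γ (V x)` then
  `Approx m V F → MvPowerSeries.map γ F = F` (the coefficients of `F` are `γ`-fixed).
-/
import Mathlib

set_option autoImplicit false
set_option linter.unusedSectionVars false
set_option linter.style.longLine false

namespace Fermat.Agent.FF.GLUE.UniqSeries7

open MvPowerSeries

variable {A : Type*} [CommRing A] {σ : Type*} [Finite σ]

/-- no nonzero element is divisible by all nonzero elements of `m`. -/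
def Small (m : Ideal A) : Prop := ∀ c : A, (∀ x ∈ m, x ≠ 0 → x ∣ c) → c = 0

/-- `F` approximates the value function `V` on `m^σ`. -/
def Approx (m : Ideal A) (V : (σ → A) → A) (F : MvPowerSeries σ A) : Prop :=
  ∀ x : σ → A, (∀ s, x s ∈ m) → ∀ N : ℕ,
    V x - MvPolynomial.eval x (truncTotal N F) ∈ Ideal.span (Set.range x) ^ N

theorem Approx.sub {m : Ideal A} {V V' : (σ → A) → A} {F G : MvPowerSeries σ A}
    (hF : Approx m V F) (hG : Approx m V' G) : Approx m (V - V') (F - G) := by
  intro x hx N
  have h := Ideal.sub_mem _ (hF x hx N) (hG x hx N)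
  rw [map_sub, map_sub, Pi.sub_apply]
  convert h using 1
  ring

/-- evaluation of a homogeneous polynomial at a scaled point. -/
theorem eval_smul_of_isHomogeneous {p : MvPolynomial σ A} {n : ℕ} (hp : p.IsHomogeneous n)
    (t : A) (lam : σ → A) :
    MvPolynomial.eval (fun s => t * lam s) p = t ^ n * MvPolynomial.eval lam p := by
  rw [MvPolynomial.eval_eq, MvPolynomial.eval_eq, Finset.mul_sum]
  refine Finset.sum_congr rfl fun d hd => ?_
  have hdeg : d.degree = n := by
    rw [Finsupp.degree_eq_weight_one]
    exact hp (MvPolynomial.mem_support_iff.mp hd)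
  have hsum : d.degree = ∑ i ∈ d.support, d i := rfl
  have h1 : ∏ i ∈ d.support, (t * lam i) ^ d i = t ^ n * ∏ i ∈ d.support, lam i ^ d i := by
    rw [← hdeg, hsum, ← Finset.prod_pow_eq_pow_sum, ← Finset.prod_mul_distrib]
    exact Finset.prod_congr rfl fun i _ => mul_pow _ _ _
  rw [h1]; ring

variable [IsDomain A] [Infinite A]

/-- **A power series all of whose truncations are small on `m^σ` vanishes.** -/
theorem eq_zero_of_approx_zero {m : Ideal A} (hm : Small m) {F : MvPowerSeries σ A}
    (hF : Approx m 0 F) : F = 0 := by
  -- all coefficients of total degree `< j` vanish, by induction on `j`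
  have key : ∀ j : ℕ, ∀ d : σ →₀ ℕ, d.degree < j → coeff d F = 0 := by
    intro j
    induction j with
    | zero => intro d hd; omega
    | succ j ih =>
      -- the truncation at `j + 1` is homogeneous of degree `j`
      have hhom : (truncTotal (j + 1) F).IsHomogeneous j := by
        intro d hd
        have hdw : Finsupp.weight (1 : σ → ℕ) d = d.degree := by
          rw [Finsupp.degree_eq_weight_one]; rfl
        rw [coeff_truncTotal_eq_ite] at hd
        by_cases h1 : d.degree < j + 1
        · rw [if_pos h1] at hd
          by_contra hne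
          have : d.degree < j := by
            have : d.degree ≠ j := fun h => hne (hdw.trans h)
            omega
          exact hd (ih d this)
        · rw [if_neg h1] at hd
          exact absurd rfl hd
      have hzero : truncTotal (j + 1) F = 0 := by
        apply hhom.eq_zero_of_forall_eval_eq_zero
        intro lam
        apply hm
        intro t ht ht0
        have hx : ∀ s, (fun s => t * lam s) s ∈ m := fun s => m.mul_mem_right _ ht
        have h := hF (fun s => t * lam s) hx (j + 1)
        rw [Pi.zero_apply, zero_sub, neg_mem_iff, eval_smul_of_isHomogeneous hhom] at h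
        have hle : Ideal.span (Set.range fun s => t * lam s) ≤ Ideal.span {t} := by
          rw [Ideal.span_le]
          rintro _ ⟨s, rfl⟩
          exact Ideal.mem_span_singleton.mpr ⟨lam s, rfl⟩
        have h2 := Ideal.pow_right_mono hle (j + 1) h
        rw [Ideal.span_singleton_pow, Ideal.mem_span_singleton] at h2
        obtain ⟨c, hc⟩ := h2
        refine ⟨c, ?_⟩
        have h3 : t ^ j * MvPolynomial.eval lam (truncTotal (j + 1) F) = t ^ j * (t * c) := by
          rw [hc]; ring
        exact mul_left_cancel₀ (pow_ne_zero j ht0) h3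
      intro d hd
      have := congrArg (MvPolynomial.coeff d) hzero
      rwa [coeff_truncTotal _ hd, MvPolynomial.coeff_zero] at this
  ext d
  rw [map_zero]
  exact key (d.degree + 1) d (Nat.lt_succ_self _)

/-- **uniqueness of the approximating series.** -/
theorem approx_unique {m : Ideal A} (hm : Small m) {V : (σ → A) → A} {F G : MvPowerSeries σ A}
    (hF : Approx m V F) (hG : Approx m V G) : F = G := by
  have h := hF.sub hG
  rw [sub_self] at h
  exact sub_eq_zero.mp (eq_zero_of_approx_zero hm h)

omit [IsDomain A] [Infinite A] in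
theorem truncTotal_map (γ : A →+* A) (N : ℕ) (F : MvPowerSeries σ A) :
    truncTotal N (MvPowerSeries.map γ F) = MvPolynomial.map γ (truncTotal N F) := by
  ext d
  rw [coeff_truncTotal_eq_ite, MvPolynomial.coeff_map, coeff_truncTotal_eq_ite, coeff_map]
  split_ifs
  · rfl
  · rw [map_zero]

omit [IsDomain A] [Infinite A] in
/-- transport of approximation under a ring automorphism preserving `m`. -/
theorem Approx.map {m : Ideal A} (γ : A ≃+* A) (hγm : ∀ a, a ∈ m ↔ γ a ∈ m) {V : (σ → A) → A}
    (hV : ∀ x : σ → A, (∀ s, x s ∈ m) → V (fun s => γ (x s)) = γ (V x)) {F : MvPowerSeries σ A}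
    (hF : Approx m V F) : Approx m V (MvPowerSeries.map (γ : A →+* A) F) := by
  intro x hx N
  set x' : σ → A := fun s => γ.symm (x s) with hx'
  have hx'm : ∀ s, x' s ∈ m := fun s => by
    rw [hγm, hx', RingEquiv.apply_symm_apply]; exact hx s
  have hxx' : (fun s => γ (x' s)) = x := by
    funext s; rw [hx', RingEquiv.apply_symm_apply]
  have h := hF x' hx'm N
  have h1 := Ideal.mem_map_of_mem (γ : A →+* A) h
  rw [Ideal.map_pow, Ideal.map_span] at h1
  have himg : (⇑(γ : A →+* A) '' Set.range x') = Set.range x := by
    rw [← Set.range_comp]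
    exact congrArg Set.range hxx'
  rw [himg, map_sub] at h1
  have h2 : (γ : A →+* A) (V x') = V x := by
    show γ (V x') = V x
    rw [← hV x' hx'm, hxx']
  have h3 : (γ : A →+* A) (MvPolynomial.eval x' (truncTotal N F)) =
      MvPolynomial.eval x (truncTotal N (MvPowerSeries.map (γ : A →+* A) F)) := by
    rw [truncTotal_map, MvPolynomial.eval_map]
    have h4 := MvPolynomial.eval₂_comp (γ : A →+* A) x' (truncTotal N F)
    rw [h4]
    congr 1
  rw [h2, h3] at h1
  exact h1

/-- **rationality by uniqueness**: if the value function is `γ`-equivariant, the coefficients of the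
approximating series are `γ`-fixed. -/
theorem map_eq_of_equivariant {m : Ideal A} (hm : Small m) (γ : A ≃+* A)
    (hγm : ∀ a, a ∈ m ↔ γ a ∈ m) {V : (σ → A) → A}
    (hV : ∀ x : σ → A, (∀ s, x s ∈ m) → V (fun s => γ (x s)) = γ (V x)) {F : MvPowerSeries σ A}
    (hF : Approx m V F) : MvPowerSeries.map (γ : A →+* A) F = F :=
  approx_unique hm (hF.map γ hγm hV) hF

theorem coeff_fixed_of_equivariant {m : Ideal A} (hm : Small m) (γ : A ≃+* A)
    (hγm : ∀ a, a ∈ m ↔ γ a ∈ m) {V : (σ → A) → A}
    (hV : ∀ x : σ → A, (∀ s, x s ∈ m) → V (fun s => γ (x s)) = γ (V x)) {F : MvPowerSeries σ A}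
    (hF : Approx m V F) (d : σ →₀ ℕ) : γ (coeff d F) = coeff d F := by
  have h := congrArg (coeff d) (map_eq_of_equivariant hm γ hγm hV hF)
  rwa [coeff_map] at h

end Fermat.Agent.FF.GLUE.UniqSeries7
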