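/-
Programme FF (S19), chapter GLUE (helper7): **rationality of the formal group law by uniqueness**.

F5 constructs the power series of the (three-fold) group law on `ker(red) ≅ m_A^g` over the whole
valuation ring `A`, with non-rational auxiliary data (`PSOut S`).  Since a power series over `A` is
determined by its approximate values on `m_A^n` (`UniqSeries7`) and the coordinates are equivariant under
the inertia-type group `Γ` fixing the coordinate system `S` (`KerGal0.smul_kap`), its coefficients are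
`Γ`-fixed, hence lie in `W ⊇ A^Γ`; truncating and specialising the third group of variables at a
`W`-rational `δ` gives lead's `Comul0.FGOut S W`.

* `coords T T' δ : (Fin g ⊕ Fin g) ⊕ Fin g → A`;
* `PSOut S` : the contract for F5's output (over `A`);
* `coeff_fixed` : the coefficients of the series are `Γ`-fixed;
* `fgOut_of_psOut : PSOut S → FGOut S W`.
-/
import Mathlib
import Fermat.Agent.FF.INST.Comul0
import Fermat.Agent.FF.GLUE.UniqSeries7

set_option autoImplicit false
set_option linter.unusedSectionVars false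
set_option linter.style.longLine false

namespace Fermat.Agent.FF.GLUE.Rational7

open AlgebraicCurve Fermat.Agent.X0.FF Fermat.Agent.RR.LSpace Fermat.Agent.MW.EMB.Value6
open Fermat.Agent.FF.RED.RedDatum7 Fermat.Agent.FF.RED.Disc7 Fermat.Agent.FF.KER.Ker0
open Fermat.Agent.FF.KER.KerGal0 Fermat.Agent.FF.INST.Gen0 Fermat.Agent.FF.INST.Comul0
open Fermat.Agent.FF.GLUE.UniqSeries7

noncomputable section

variable {L F : Type} {k Ft : Type*} [Field L] [Field F] [Algebra L F] [Field k] [Field Ft]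
  [Algebra k Ft]
variable {D : RedDatum L F k Ft} {g : ℕ}

/-- the variables of the three-fold group law. -/
abbrev Var (g : ℕ) : Type := (Fin g ⊕ Fin g) ⊕ Fin g

/-- the coordinate vector of a triple of points of the kernel. -/
def coords (T T' δ : Fin g → mA D) : Var g → D.A :=
  Sum.elim (Sum.elim (fun l => (T l : D.A)) (fun l => (T' l : D.A))) (fun l => (δ l : D.A))

theorem coords_mem (T T' δ : Fin g → mA D) (s : Var g) :
    coords T T' δ s ∈ IsLocalRing.maximalIdeal D.A := by
  rcases s with (l | l) | l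
  · exact (T l).2
  · exact (T' l).2
  · exact (δ l).2

/-- **the contract for F5's output** (power series over `A`): the three-fold sum in coordinates is
computed by `F`, up to the `N`-th power of the ideal generated by the coordinates. -/
def PSOut (S : NSSystem D g) : Prop :=
  ∃ Fs : Fin g → MvPowerSeries (Var g) D.A, ∀ T T' δ T'' : Fin g → mA D,
    S.kap T + S.kap T' + S.kap δ = S.kap T'' → ∀ (i : Fin g) (N : ℕ),
      ((T'' i : D.A)) - MvPolynomial.eval (coords T T' δ) (MvPowerSeries.truncTotal N (Fs i))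
        ∈ Ideal.span (Set.range (coords T T' δ)) ^ N

variable {S : NSSystem D g} {Γ : Type} [Group Γ] [MulSemiringAction Γ L] (Z : Setting S Γ)

/-- sums of kernel points are kernel points, in coordinates. -/
theorem exists_sum (Z : Setting S Γ) (T T' δ : Fin g → mA D) :
    ∃ T'' : Fin g → mA D, S.kap T + S.kap T' + S.kap δ = S.kap T'' := by
  have hmem : S.kap T + S.kap T' + S.kap δ ∈ (redPic D).ker := by
    rw [AddMonoidHom.mem_ker, map_add, map_add, S.redPic_kap, S.redPic_kap, S.redPic_kap, add_zero,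
      add_zero]
  refine ⟨(S.kerEquiv Z.hRR).symm ⟨_, hmem⟩, ?_⟩
  have h := (S.kerEquiv Z.hRR).apply_symm_apply ⟨_, hmem⟩
  exact (congrArg Subtype.val h).symm

/-- the three coordinate vectors extracted from a point of `m_A^{3g}`. -/
def vec1 (x : Var g → D.A) (h : ∀ s, x s ∈ IsLocalRing.maximalIdeal D.A) : Fin g → mA D :=
  fun l => ⟨x (Sum.inl (Sum.inl l)), h _⟩
def vec2 (x : Var g → D.A) (h : ∀ s, x s ∈ IsLocalRing.maximalIdeal D.A) : Fin g → mA D :=
  fun l => ⟨x (Sum.inl (Sum.inr l)), h _⟩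
def vec3 (x : Var g → D.A) (h : ∀ s, x s ∈ IsLocalRing.maximalIdeal D.A) : Fin g → mA D :=
  fun l => ⟨x (Sum.inr l), h _⟩

theorem coords_vec (x : Var g → D.A) (h : ∀ s, x s ∈ IsLocalRing.maximalIdeal D.A) :
    coords (vec1 x h) (vec2 x h) (vec3 x h) = x := by
  funext s
  rcases s with (l | l) | l <;> rfl

open Classical in
/-- the value function: the `i`-th coordinate of the sum of the three points. -/
def valFun (Z : Setting S Γ) (i : Fin g) (x : Var g → D.A) : D.A :=
  if h : ∀ s, x s ∈ IsLocalRing.maximalIdeal D.A then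
    ((exists_sum Z (vec1 x h) (vec2 x h) (vec3 x h)).choose i : D.A)
  else 0

theorem valFun_eq (i : Fin g) (x : Var g → D.A) (hx : ∀ s, x s ∈ IsLocalRing.maximalIdeal D.A)
    (T'' : Fin g → mA D)
    (h : S.kap (vec1 x hx) + S.kap (vec2 x hx) + S.kap (vec3 x hx) = S.kap T'') :
    valFun Z i x = (T'' i : D.A) := by
  unfold valFun
  rw [dif_pos hx]
  have hch := (exists_sum Z (vec1 x hx) (vec2 x hx) (vec3 x hx)).choose_spec
  have := S.kap_injective (h.symm.trans hch)
  rw [← this]

theorem valFun_spec (i : Fin g) (T T' δ T'' : Fin g → mA D)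
    (hsum : S.kap T + S.kap T' + S.kap δ = S.kap T'') :
    valFun Z i (coords T T' δ) = (T'' i : D.A) := by
  have hx : ∀ s, coords T T' δ s ∈ IsLocalRing.maximalIdeal D.A := coords_mem T T' δ
  have h1 : vec1 (coords T T' δ) hx = T := by funext l; exact Subtype.ext rfl
  have h2 : vec2 (coords T T' δ) hx = T' := by funext l; exact Subtype.ext rfl
  have h3 : vec3 (coords T T' δ) hx = δ := by funext l; exact Subtype.ext rfl
  apply valFun_eq Z i _ hx T''
  rw [h1, h2, h3]
  exact hsum

/-- F5's series approximates the value function. -/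
theorem approx_of_psOut {Fs : Fin g → MvPowerSeries (Var g) D.A}
    (hF : ∀ T T' δ T'' : Fin g → mA D,
      S.kap T + S.kap T' + S.kap δ = S.kap T'' → ∀ (i : Fin g) (N : ℕ),
        ((T'' i : D.A)) - MvPolynomial.eval (coords T T' δ) (MvPowerSeries.truncTotal N (Fs i))
          ∈ Ideal.span (Set.range (coords T T' δ)) ^ N) (i : Fin g) :
    Approx (IsLocalRing.maximalIdeal D.A) (valFun Z i) (Fs i) := by
  intro x hx N
  obtain ⟨T'', hT''⟩ := exists_sum Z (vec1 x hx) (vec2 x hx) (vec3 x hx)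
  have h := hF _ _ _ T'' hT'' i N
  rw [← valFun_spec Z i _ _ _ T'' hT'', coords_vec] at h
  exact h

/-! ### the action of `Γ` on `A` -/

/-- the automorphism of `A` induced by `γ`. -/
def gA (hΓA : ∀ (γ : Γ) (a : L), a ∈ D.A → γ • a ∈ D.A) (γ : Γ) : D.A ≃+* D.A where
  toFun a := ⟨γ • (a : L), hΓA γ a a.2⟩
  invFun a := ⟨γ⁻¹ • (a : L), hΓA γ⁻¹ a a.2⟩
  left_inv a := Subtype.ext (inv_smul_smul γ (a : L))
  right_inv a := Subtype.ext (smul_inv_smul γ (a : L))
  map_mul' a b := Subtype.ext (smul_mul' γ (a : L) (b : L))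
  map_add' a b := Subtype.ext (smul_add γ (a : L) (b : L))

@[simp] theorem coe_gA (hΓA : ∀ (γ : Γ) (a : L), a ∈ D.A → γ • a ∈ D.A) (γ : Γ) (a : D.A) :
    ((gA hΓA γ a : D.A) : L) = γ • (a : L) := rfl

theorem gA_mem_iff (hΓA : ∀ (γ : Γ) (a : L), a ∈ D.A → γ • a ∈ D.A) (γ : Γ) (a : D.A) :
    a ∈ IsLocalRing.maximalIdeal D.A ↔ gA hΓA γ a ∈ IsLocalRing.maximalIdeal D.A := by
  rw [IsLocalRing.mem_maximalIdeal, IsLocalRing.mem_maximalIdeal, mem_nonunits_iff,
    mem_nonunits_iff, not_iff_not]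
  exact (isUnit_map_iff (gA hΓA γ) a).symm

/-- conjugate of a coordinate vector. -/
def gVec (hΓA : ∀ (γ : Γ) (a : L), a ∈ D.A → γ • a ∈ D.A) (γ : Γ) (T : Fin g → mA D) :
    Fin g → mA D :=
  fun l => ⟨gA hΓA γ (T l : D.A), (gA_mem_iff hΓA γ _).mp (T l).2⟩

theorem smul_kap_gVec (hΓA : ∀ (γ : Γ) (a : L), a ∈ D.A → γ • a ∈ D.A) (γ : Γ)
    (T : Fin g → mA D) : Z.ρ γ • S.kap T = S.kap (gVec hΓA γ T) :=
  smul_kap (Z.discCompat γ) (Z.fixes γ) (fun l => by
    show γ • ((T l : D.A) : L) = _
    rw [Z.base])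

/-- **the value function is `Γ`-equivariant.** -/
theorem valFun_equivariant (hΓA : ∀ (γ : Γ) (a : L), a ∈ D.A → γ • a ∈ D.A) (γ : Γ) (i : Fin g)
    (x : Var g → D.A) (hx : ∀ s, x s ∈ IsLocalRing.maximalIdeal D.A) :
    valFun Z i (fun s => gA hΓA γ (x s)) = gA hΓA γ (valFun Z i x) := by
  obtain ⟨T'', hT''⟩ := exists_sum Z (vec1 x hx) (vec2 x hx) (vec3 x hx)
  have h1 : valFun Z i x = (T'' i : D.A) := valFun_eq Z i x hx T'' hT''
  have hsum' : S.kap (gVec hΓA γ (vec1 x hx)) + S.kap (gVec hΓA γ (vec2 x hx))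
      + S.kap (gVec hΓA γ (vec3 x hx)) = S.kap (gVec hΓA γ T'') := by
    rw [← smul_kap_gVec Z hΓA γ, ← smul_kap_gVec Z hΓA γ, ← smul_kap_gVec Z hΓA γ,
      ← smul_kap_gVec Z hΓA γ, ← hT'', smul_add, smul_add]
  have h2 := valFun_spec Z i _ _ _ _ hsum'
  have hc : coords (gVec hΓA γ (vec1 x hx)) (gVec hΓA γ (vec2 x hx)) (gVec hΓA γ (vec3 x hx))
      = fun s => gA hΓA γ (x s) := by
    funext s
    rcases s with (l | l) | l <;> rfl
  rw [hc] at h2
  rw [h2, h1]
  rfl

include Z in
/-- **the coefficients of F5's series are `Γ`-fixed.** -/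
theorem coeff_fixed [Infinite D.A] (hΓA : ∀ (γ : Γ) (a : L), a ∈ D.A → γ • a ∈ D.A)
    (hsmall : UniqSeries7.Small (IsLocalRing.maximalIdeal D.A))
    {Fs : Fin g → MvPowerSeries (Var g) D.A}
    (hF : ∀ T T' δ T'' : Fin g → mA D,
      S.kap T + S.kap T' + S.kap δ = S.kap T'' → ∀ (i : Fin g) (N : ℕ),
        ((T'' i : D.A)) - MvPolynomial.eval (coords T T' δ) (MvPowerSeries.truncTotal N (Fs i))
          ∈ Ideal.span (Set.range (coords T T' δ)) ^ N)
    (γ : Γ) (i : Fin g) (d : Var g →₀ ℕ) :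
    γ • ((MvPowerSeries.coeff d (Fs i) : D.A) : L) = ((MvPowerSeries.coeff d (Fs i) : D.A) : L) := by
  have h := coeff_fixed_of_equivariant hsmall (gA hΓA γ) (gA_mem_iff hΓA γ)
    (fun x hx => valFun_equivariant Z hΓA γ i x hx) (approx_of_psOut Z hF i) d
  exact congrArg Subtype.val h

/-! ### from the series over `A` to polynomials over `W` -/

/-- the substitution `X ↦ X`, `Y ↦ Y`, `Z ↦ δ`. -/
def subZ {W : Type} [CommRing W] (δW : Fin g → W) : Var g → MvPolynomial (Fin g ⊕ Fin g) W :=
  Sum.elim (Sum.elim (fun l => MvPolynomial.X (Sum.inl l)) (fun l => MvPolynomial.X (Sum.inr l)))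
    (fun l => MvPolynomial.C (δW l))

theorem truncTotal_map' {R R' : Type*} [CommRing R] [CommRing R'] {σ : Type*} [Finite σ]
    (φ : R →+* R') (N : ℕ) (f : MvPowerSeries σ R) :
    MvPowerSeries.truncTotal N (MvPowerSeries.map φ f)
      = MvPolynomial.map φ (MvPowerSeries.truncTotal N f) := by
  ext d
  rw [MvPowerSeries.coeff_truncTotal_eq_ite, MvPolynomial.coeff_map,
    MvPowerSeries.coeff_truncTotal_eq_ite, MvPowerSeries.coeff_map]
  split_ifs
  · rfl
  · rw [map_zero]

include Z in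
/-- **Rationality by uniqueness**: F5's output over `A` gives `FGOut S W` for every `W ⊇ A^Γ`. -/
theorem fgOut_of_psOut [Infinite D.A] {W : Type} [CommRing W] [Algebra W L]
    (hΓA : ∀ (γ : Γ) (a : L), a ∈ D.A → γ • a ∈ D.A)
    (hsmall : UniqSeries7.Small (IsLocalRing.maximalIdeal D.A))
    (hrank : ∀ w : D.A, w ≠ 0 → ∀ c : D.A, ¬ IsUnit c → ∃ n : ℕ, c ^ n ∈ Ideal.span {w})
    (hWA : ∀ w : W, algebraMap W L w ∈ D.A) (hWinj : Function.Injective (algebraMap W L))
    (hWfix : ∀ a : D.A, (∀ γ : Γ, γ • (a : L) = (a : L)) → ∃ w : W, algebraMap W L w = (a : L))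
    (hPS : PSOut S) : FGOut S W := by
  classical
  obtain ⟨Fs, hF⟩ := hPS
  -- the coefficients, in `W`
  have hcW : ∀ (i : Fin g) (d : Var g →₀ ℕ), ∃ w : W,
      algebraMap W L w = ((MvPowerSeries.coeff d (Fs i) : D.A) : L) := fun i d =>
    hWfix _ fun γ => coeff_fixed Z hΓA hsmall hF γ i d
  choose cW hcW' using hcW
  let FW : Fin g → MvPowerSeries (Var g) W := fun i d => cW i d
  have hFW : ∀ i d, MvPowerSeries.coeff d (FW i) = cW i d := fun i d => rfl
  intro δ hδ a ha w hw
  choose δW hδW using hδ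
  -- `w` as an element of `A`
  set wA : D.A := ⟨algebraMap W L w, hWA w⟩ with hwA
  have hwA0 : wA ≠ 0 := by
    intro h0
    apply hw
    apply hWinj
    rw [map_zero]
    exact congrArg Subtype.val h0
  -- a common bound of `a` and the coordinates of `δ`
  obtain ⟨c, hc, hcdvd⟩ := exists_bound (insert a (Finset.univ.image fun l => (δ l : D.A))) (by
    intro b hb
    rcases Finset.mem_insert.mp hb with rfl | hb
    · exact ha
    · obtain ⟨l, _, rfl⟩ := Finset.mem_image.mp hb
      exact not_isUnit_of_mA _)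
  have hca : c ∣ a := hcdvd a (Finset.mem_insert_self _ _)
  have hcδ : ∀ l, c ∣ (δ l : D.A) := fun l =>
    hcdvd _ (Finset.mem_insert_of_mem (Finset.mem_image.mpr ⟨l, Finset.mem_univ _, rfl⟩))
  obtain ⟨N, hN⟩ := hrank wA hwA0 c hc
  refine ⟨fun i => MvPolynomial.bind₁ (subZ δW) (MvPowerSeries.truncTotal N (FW i)), ?_⟩
  intro T T' T'' hT hT' hsum i
  -- the ideal of the coordinates is contained in `(c)`
  have hle : Ideal.span (Set.range (coords T T' δ)) ≤ Ideal.span {c} := by
    rw [Ideal.span_le]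
    rintro _ ⟨s, rfl⟩
    rw [SetLike.mem_coe, Ideal.mem_span_singleton]
    rcases s with (l | l) | l
    · obtain ⟨b, hb⟩ := hT l
      show c ∣ (T l : D.A)
      rw [hb]; exact hca.mul_right b
    · obtain ⟨b, hb⟩ := hT' l
      show c ∣ (T' l : D.A)
      rw [hb]; exact hca.mul_right b
    · exact hcδ l
  have hmem := hF T T' δ T'' hsum i N
  have hmem2 : ((T'' i : D.A)) - MvPolynomial.eval (coords T T' δ)
      (MvPowerSeries.truncTotal N (Fs i)) ∈ Ideal.span {wA} := by
    have h1 := Ideal.pow_right_mono hle N hmem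
    rw [Ideal.span_singleton_pow] at h1
    exact (Ideal.span_le.mpr (Set.singleton_subset_iff.mpr hN)) h1
  obtain ⟨b, hb⟩ := Ideal.mem_span_singleton.mp hmem2
  refine ⟨b, ?_⟩
  -- identify the two evaluations
  have hev : MvPolynomial.aeval (pairVal T T')
      (MvPolynomial.bind₁ (subZ δW) (MvPowerSeries.truncTotal N (FW i)))
      = ((MvPolynomial.eval (coords T T' δ) (MvPowerSeries.truncTotal N (Fs i)) : D.A) : L) := by
    have hx : ∀ s : Var g, MvPolynomial.aeval (pairVal T T') (subZ δW s)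
        = ((coords T T' δ s : D.A) : L) := by
      intro s
      rcases s with (l | l) | l
      · show MvPolynomial.aeval (pairVal T T') (MvPolynomial.X (Sum.inl l)) = _
        rw [MvPolynomial.aeval_X]; rfl
      · show MvPolynomial.aeval (pairVal T T') (MvPolynomial.X (Sum.inr l)) = _
        rw [MvPolynomial.aeval_X]; rfl
      · show MvPolynomial.aeval (pairVal T T') (MvPolynomial.C (δW l)) = _
        rw [MvPolynomial.aeval_C, hδW]; rfl
    rw [MvPolynomial.aeval_bind₁]
    have h1 : (fun s => MvPolynomial.aeval (pairVal T T') (subZ δW s))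
        = fun s => D.A.subtype (coords T T' δ s) := funext hx
    rw [h1]
    have h2 : ((MvPolynomial.eval (coords T T' δ) (MvPowerSeries.truncTotal N (Fs i)) : D.A) : L)
        = D.A.subtype (MvPolynomial.eval (coords T T' δ) (MvPowerSeries.truncTotal N (Fs i))) := rfl
    rw [h2, MvPolynomial.eval₂_comp, MvPolynomial.aeval_def, MvPolynomial.eval₂_eq_eval_map,
      MvPolynomial.eval₂_eq_eval_map]
    congr 1
    -- the two polynomials over `L` agree
    ext d
    rw [MvPolynomial.coeff_map, MvPolynomial.coeff_map, MvPowerSeries.coeff_truncTotal_eq_ite,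
      MvPowerSeries.coeff_truncTotal_eq_ite]
    split_ifs
    · rw [hFW, hcW']; rfl
    · rw [map_zero, map_zero]
  rw [hev]
  exact congrArg Subtype.val hb

end

end Fermat.Agent.FF.GLUE.Rational7
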