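/-
Programme FF (S19), chapter GLUE (helper7): **the closing theorem of F5 + rationality**.

For an ARBITRARY non-special system `S` of `genus L F` centres:

* `psOut_all`  : `Rational7.PSOut S` (two auxiliary systems off the discs of `S` by
  `NSFinal5.exists_nsSystem`, the chain data by `ChainExists4.exists_chainData` with Riemann's
  inequality `MW.ASM.Reps1.riemann_le`, and `Out3.psOut_of_law`);
* `miniSetting` : a `Gen0.Setting` with `M = ⊥` from `(ρ, base, triv, fixes)`;
* `fgOut_all`  : `Comul0.FGOut S W` for every `Γ`-fixed system `S`: exactly the hypothesis `hFG` of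
  `INST/Main0.exists_approxGen`.
-/
import Mathlib
import Fermat.Agent.FF.FAM.Out3
import Fermat.Agent.FF.FAM.ChainExists4
import Fermat.Agent.FF.NS.NSFinal5
import Fermat.Agent.FF.INST.RRInst0
import Fermat.Agent.FF.GLUE.Rational7

set_option autoImplicit false
set_option linter.unusedSectionVars false
set_option linter.style.longLine false

namespace Fermat.Agent.FF.GLUE.Close7

open AlgebraicCurve Fermat.Agent.X0.FF Fermat.Agent.RR.LSpace Fermat.Agent.MW.EMB.Value6
open Fermat.Agent.FF.RED.RedDatum7 Fermat.Agent.FF.RED.Disc7 Fermat.Agent.FF.KER.Ker0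
open Fermat.Agent.FF.KER.KerGal0 Fermat.Agent.FF.INST.Gen0 Fermat.Agent.FF.INST.Comul0
open Fermat.Agent.FF.NS.Link9 Fermat.Agent.FF.GLUE.Rational7

noncomputable section

variable {L F k Ft : Type} [Field L] [Field F] [Algebra L F] [Field k] [Field Ft] [Algebra k Ft]
variable {D : RedDatum L F k Ft}
variable [IsAlgClosed L] [CharZero L] {x : F} [HasCanonicalDivisor (K := L) (F := F)] [Infinite k]

/-- **F5, closing form**: the power-series contract for an arbitrary non-special system of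
`genus L F` centres. -/
theorem psOut_all (hx : IsGen L x) (hsurj : Function.Surjective D.red) {ι : Type}
    (C : ChartCover D ι)
    (hrank : ∀ w : D.A, w ≠ 0 → ∀ c : D.A, ¬ IsUnit c → ∃ n : ℕ, c ^ n ∈ Ideal.span {w})
    (S : NSSystem D (genus L F)) : PSOut S := by
  classical
  obtain ⟨S0', h0', -⟩ := Fermat.Agent.FF.NS.NSFinal5.exists_nsSystem hx hsurj C
    (Finset.univ.image fun i => D.r (S.P i))
  obtain ⟨S1, h1, -⟩ := Fermat.Agent.FF.NS.NSFinal5.exists_nsSystem hx hsurj C
    ((Finset.univ.image fun i => D.r (S.P i)) ∪ Finset.univ.image fun i => D.r (S0'.P i))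
  have d00' : ∀ i j, D.r (S.P i) ≠ D.r (S0'.P j) := fun i j h =>
    h0' j (h ▸ Finset.mem_image_of_mem _ (Finset.mem_univ i))
  have d01 : ∀ i j, D.r (S.P i) ≠ D.r (S1.P j) := fun i j h =>
    h1 j (Finset.mem_union_left _ (h ▸ Finset.mem_image_of_mem _ (Finset.mem_univ i)))
  have d0'1 : ∀ i j, D.r (S0'.P i) ≠ D.r (S1.P j) := fun i j h =>
    h1 j (Finset.mem_union_right _ (h ▸ Finset.mem_image_of_mem _ (Finset.mem_univ i)))
  obtain ⟨K, hK0, -, -, hK⟩ := Fermat.Agent.FF.FAM.ChainExists4.exists_chainData S S0' S1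
    d01 d0'1 d00' (fun E => Fermat.Agent.MW.ASM.Reps1.riemann_le hx E)
  have h := Fermat.Agent.FF.FAM.Out3.psOut_of_law K hK hrank
  rw [hK0] at h
  exact h

variable {Γ : Type} [Group Γ] [MulSemiringAction Γ L]

/-- a `Setting` with trivial module from the Galois data of a `Γ`-fixed system. -/
def miniSetting (hx : IsGen L x) {g : ℕ} (hg : g = genus L F) (S : NSSystem D g)
    (ρ : Γ →* SemilinearAut L F)
    (base : ∀ (γ : Γ) (a : L), SemilinearAut.baseAut (ρ γ) a = γ • a)
    (triv : ∀ (γ : Γ) (P : Place L F), D.r (ρ γ • P) = D.r P)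
    (fixes : ∀ γ : Γ, Fixes S (ρ γ)) : Setting S Γ where
  hRR := fun E hE => Fermat.Agent.FF.INST.RRInst0.hRR_of_isGen hx E (by rw [hE, hg])
  ρ := ρ
  base := base
  triv := triv
  fixes := fixes
  M := ⊥
  finM := inferInstance
  stab := fun γ x hx' => by
    rw [AddSubgroup.mem_bot] at hx' ⊢
    rw [hx']
    exact smul_zero (A := Pic0 L F) (ρ γ)
  y := fun _ => 0
  red_y := fun x hx' => by
    rw [AddSubgroup.mem_bot] at hx'
    rw [hx']
  fix_y := fun γ x _ => smul_zero (A := Pic0 L F) (ρ γ)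

/-- **the output of F5 in the form consumed by `INST/Main0.exists_approxGen`** (`hFG`). -/
theorem fgOut_all (hx : IsGen L x) (hsurj : Function.Surjective D.red) {ι : Type}
    (C : ChartCover D ι) [Infinite D.A]
    (ρ : Γ →* SemilinearAut L F)
    (base : ∀ (γ : Γ) (a : L), SemilinearAut.baseAut (ρ γ) a = γ • a)
    (triv : ∀ (γ : Γ) (P : Place L F), D.r (ρ γ • P) = D.r P)
    {W : Type} [CommRing W] [Algebra W L]
    (hΓA : ∀ (γ : Γ) (a : L), a ∈ D.A → γ • a ∈ D.A)
    (hsmall : Fermat.Agent.FF.GLUE.UniqSeries7.Small (IsLocalRing.maximalIdeal D.A))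
    (hrank : ∀ w : D.A, w ≠ 0 → ∀ c : D.A, ¬ IsUnit c → ∃ n : ℕ, c ^ n ∈ Ideal.span {w})
    (hWA : ∀ w : W, algebraMap W L w ∈ D.A) (hWinj : Function.Injective (algebraMap W L))
    (hWfix : ∀ a : D.A, (∀ γ : Γ, γ • (a : L) = (a : L)) → ∃ w : W, algebraMap W L w = (a : L))
    (S : NSSystem D (genus L F)) (hS : ∀ γ : Γ, Fixes S (ρ γ)) : FGOut S W :=
  fgOut_of_psOut (miniSetting hx rfl S ρ base triv hS) hΓA hsmall hrank hWA hWinj hWfix
    (psOut_all hx hsurj C hrank S)

end

end Fermat.Agent.FF.GLUE.Close7
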