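/-
Programme FF (S19), chapter GLUE, step (L) (helper7): **rational lifts of divisor classes**.

`D : RedDatum L F k Ft`, `Bad` a finite set of places of the reduction, `Fix` a predicate on the places
of `F` ("fixed by inertia") such that every reduced place outside `Bad` has a lift satisfying `Fix`.

* `exists_avoiding`   : every class of `Pic0 k Ft` is represented by a divisor avoiding `Bad`
  (moving lemma, from weak approximation);
* `exists_fix_lift`   : every class `c : Pic0 k Ft` is the reduction of the class of a divisor of degree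
  zero all of whose places satisfy `Fix`;
* `smul_mk_eq_of_fixed` : a semilinear automorphism fixing the places of the support fixes the class.
-/
import Mathlib
import Fermat.Agent.FF.KER.Ker0
import Fermat.Agent.ES.HECKE.WeakApprox25
import Fermat.Prelude.Def_AlgebraicCurve_BaseChangeGalois

set_option autoImplicit false
set_option linter.unusedSectionVars false
set_option linter.style.longLine false

namespace Fermat.Agent.FF.GLUE.RatLift7

open AlgebraicCurve Fermat.Agent.X0.FF Fermat.Agent.RR.LSpace
open Fermat.Agent.FF.RED.RedDatum7 Fermat.Agent.FF.KER.Ker0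

noncomputable section

variable {L F k Ft : Type*} [Field L] [Field F] [Algebra L F] [Field k] [Field Ft] [Algebra k Ft]

/-- **moving lemma**: every class is represented by a divisor of degree zero avoiding a given finite set
of places. -/
theorem exists_avoiding {K E : Type*} [Field K] [Field E] [Algebra K E] (H : LHyp K E)
    (Bad : Finset (Place K E)) (c : Pic0 K E) :
    ∃ E' : Divisor.degZero (K := K) (F := E), Pic0.mk E' = c ∧
      ∀ Q ∈ Bad, (E' : Divisor K E) Q = 0 := by
  obtain ⟨E₀, rfl⟩ := Pic0.mk_surjective c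
  obtain ⟨f, hf0, hf⟩ := Fermat.Agent.ES.HECKE.WeakApprox25.exists_ord_eq Bad
    (fun Q => -((E₀ : Divisor K E) Q))
  have hdeg : divOf H hf0 ∈ Divisor.degZero (K := K) (F := E) := degree_divOf H hf0
  refine ⟨E₀ + ⟨divOf H hf0, hdeg⟩, ?_, fun Q hQ => ?_⟩
  · rw [Pic0.mk_add]
    have : Pic0.mk (⟨divOf H hf0, hdeg⟩ : Divisor.degZero (K := K) (F := E)) = 0 := by
      unfold Pic0.mk
      rw [QuotientAddGroup.eq_zero_iff, AddSubgroup.mem_addSubgroupOf, Divisor.mem_principal]
      exact ⟨f, hf0, fun v => divOf_apply H hf0 v⟩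
    rw [this, add_zero]
  · show ((E₀ : Divisor K E) + divOf H hf0) Q = 0
    rw [Finsupp.add_apply, divOf_apply, hf Q hQ, add_neg_cancel]

variable (D : RedDatum L F k Ft)

/-- **(L)**: every class of the reduced curve lifts to the class of a divisor supported on places
satisfying `Fix`, provided every reduced place outside a finite set has a lift satisfying `Fix`. -/
theorem exists_fix_lift (Bad : Finset (Place k Ft)) (Fix : Place L F → Prop)
    (hlift : ∀ Q : Place k Ft, Q ∉ Bad → ∃ P : Place L F, D.r P = Q ∧ Fix P) (c : Pic0 k Ft) :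
    ∃ E : Divisor.degZero (K := L) (F := F),
      (∀ P ∈ (E : Divisor L F).support, Fix P) ∧ redPic D (Pic0.mk E) = c := by
  classical
  obtain ⟨E', hE'c, hE'⟩ := exists_avoiding D.Hk Bad c
  -- a lifting map
  have hsurj : ∀ Q : Place k Ft, ∃ P : Place L F, D.r P = Q ∧ (Q ∉ Bad → Fix P) := by
    intro Q
    by_cases hQ : Q ∈ Bad
    · obtain ⟨P, hP⟩ := D.r_surj Q
      exact ⟨P, hP, fun h => absurd hQ h⟩
    · obtain ⟨P, hP, hfix⟩ := hlift Q hQ
      exact ⟨P, hP, fun _ => hfix⟩
  choose ℓ hℓr hℓfix using hsurj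
  set Et : Divisor L F := Finsupp.mapDomain ℓ (E' : Divisor k Ft) with hEt
  have hred : Finsupp.mapDomain D.r Et = (E' : Divisor k Ft) := by
    rw [hEt, ← Finsupp.mapDomain_comp]
    have : Finsupp.mapDomain (D.r ∘ ℓ) (E' : Divisor k Ft)
        = Finsupp.mapDomain id (E' : Divisor k Ft) :=
      Finsupp.mapDomain_congr fun Q _ => hℓr Q
    rw [this, Finsupp.mapDomain_id]
  have hdeg : Et ∈ Divisor.degZero (K := L) (F := F) := by
    rw [Divisor.mem_degZero, ← degree_mapDomain D, hred]
    exact Divisor.mem_degZero.mp E'.2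
  refine ⟨⟨Et, hdeg⟩, fun P hP => ?_, ?_⟩
  · have hP' : P ∈ ((E' : Divisor k Ft).support).image ℓ := Finsupp.mapDomain_support hP
    obtain ⟨Q, hQ, rfl⟩ := Finset.mem_image.mp hP'
    apply hℓfix Q
    intro hbad
    exact (Finsupp.mem_support_iff.mp hQ) (hE' Q hbad)
  · rw [redPic_mk, ← hE'c]
    congr 1
    exact Subtype.ext hred

/-- a semilinear automorphism fixing the places of the support of a divisor fixes the divisor. -/
theorem smul_divisor_eq_of_fixed (γ : SemilinearAut L F) (E : Divisor L F)
    (h : ∀ P ∈ E.support, γ • P = P) : γ • E = E := by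
  rw [SemilinearAut.divisor_smul_def]
  have : Finsupp.mapDomain (fun P : Place L F => γ • P) E = Finsupp.mapDomain id E :=
    Finsupp.mapDomain_congr fun P hP => h P hP
  rw [this, Finsupp.mapDomain_id]

/-- … and hence its class. -/
theorem smul_mk_eq_of_fixed (γ : SemilinearAut L F) (E : Divisor.degZero (K := L) (F := F))
    (h : ∀ P ∈ (E : Divisor L F).support, γ • P = P) : γ • Pic0.mk E = Pic0.mk E := by
  rw [SemilinearAut.pic0_smul_mk]
  congr 1
  apply Subtype.ext
  rw [SemilinearAut.coe_degZeroSMulHom]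
  exact smul_divisor_eq_of_fixed γ _ h

/-- **(L), packaged**: lifts fixed by a family of semilinear automorphisms. -/
theorem exists_fixed_lift {Γ : Type*} (ρ : Γ → SemilinearAut L F) (Bad : Finset (Place k Ft))
    (hlift : ∀ Q : Place k Ft, Q ∉ Bad → ∃ P : Place L F, D.r P = Q ∧ ∀ γ, ρ γ • P = P)
    (c : Pic0 k Ft) :
    ∃ y : Pic0 L F, redPic D y = c ∧ ∀ γ, ρ γ • y = y := by
  obtain ⟨E, hfix, hred⟩ := exists_fix_lift D Bad (fun P => ∀ γ, ρ γ • P = P) hlift c
  exact ⟨Pic0.mk E, hred, fun γ => smul_mk_eq_of_fixed (ρ γ) E fun P hP => hfix P hP γ⟩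

end

end Fermat.Agent.FF.GLUE.RatLift7
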